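import Fermat.Agent.LT.Tame.Ramified
import Fermat.Agent.LT.Tame.SplitPlace

/-!
# The places of a cubic cyclic extension: tame, inert, split

For a place `v` of `K` prime to three, either it is tame (one place above, with trivial residue
action of the generator), or inert (one fixed place above with a nontrivial residue action), or
split (three distinct places above permuted by the generator).
-/

set_option autoImplicit false

noncomputable section

namespace Fermat.Agent.LT.Descent.Places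

open IsDedekindDomain IsDedekindDomain.HeightOneSpectrum NumberField Fermat.Agent.LT.Tame

variable {K K' : Type*} [Field K] [NumberField K] [Field K'] [NumberField K'] [Algebra K K']

/-- `σ` generates the cubic cyclic extension `K'/K`. -/
structure IsCubicGen (σ : K' ≃ₐ[K] K') : Prop where
  ne_one : σ ≠ 1
  order_three : ∀ x, σ (σ (σ x)) = x
  fixed : ∀ x, σ x = x → x ∈ Set.range (algebraMap K K')

/-- `w` lies above `v`. -/
def IsAbove (v : HeightOneSpectrum (𝓞 K)) (w : HeightOneSpectrum (𝓞 K')) : Prop :=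
  ∀ r : 𝓞 K, RingOfIntegers.mapRingHom (algebraMap K K') r ∈ w.asIdeal ↔ r ∈ v.asIdeal

variable (σ : K' ≃ₐ[K] K')

/-- `σ` is trivial on the residue field of `w`. -/
def IsResidueTrivial (w : HeightOneSpectrum (𝓞 K')) : Prop :=
  ∀ r : 𝓞 K', RingOfIntegers.mapRingEquiv σ.toRingEquiv r - r ∈ w.asIdeal

/-- The places prime to three with a residue trivial place above. -/
def tamePlaces : Set (HeightOneSpectrum (𝓞 K)) :=
  {v | (3 : 𝓞 K) ∉ v.asIdeal ∧
    ∃ w : HeightOneSpectrum (𝓞 K'), IsAbove v w ∧ IsResidueTrivial σ w}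

/-- The places with a fixed place above on which `σ` is not residue trivial. -/
def IsInert (v : HeightOneSpectrum (𝓞 K)) : Prop :=
  ∀ w : HeightOneSpectrum (𝓞 K'), IsAbove v w →
    placePerm σ.toRingEquiv w = w ∧ ¬ IsResidueTrivial σ w

/-- The places with no fixed place above. -/
def IsSplit (v : HeightOneSpectrum (𝓞 K)) : Prop :=
  ∀ w : HeightOneSpectrum (𝓞 K'), IsAbove v w → placePerm σ.toRingEquiv w ≠ w

variable {σ} (hσ : IsCubicGen σ) {v : HeightOneSpectrum (𝓞 K)}
  {w : HeightOneSpectrum (𝓞 K')}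

theorem exists_isAbove (v : HeightOneSpectrum (𝓞 K)) :
    ∃ w : HeightOneSpectrum (𝓞 K'), IsAbove v w := by
  have : FaithfulSMul (𝓞 K) (𝓞 K') := (faithfulSMul_iff_algebraMap_injective _ _).2
    fun a b h => RingOfIntegers.ext ((algebraMap K K').injective (congrArg Subtype.val h))
  have := v.isMaximal
  obtain ⟨Q, hQ, hQv⟩ := Ideal.exists_maximal_ideal_liesOver_of_isIntegral (S := 𝓞 K') v.asIdeal
  have hne : Q ≠ ⊥ := by
    rintro rfl
    refine v.ne_bot (hQv.over.trans (Ideal.comap_bot_of_injective _ ?_))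
    exact FaithfulSMul.algebraMap_injective _ _
  exact ⟨⟨Q, hQ.isPrime, hne⟩, fun r => by rw [hQv.over]; rfl⟩

theorem exists_below (w : HeightOneSpectrum (𝓞 K')) :
    ∃ v : HeightOneSpectrum (𝓞 K), IsAbove v w := 
  ⟨⟨w.asIdeal.comap (algebraMap (𝓞 K) (𝓞 K')), w.isPrime.comap _,
    fun h => w.ne_bot (Ideal.eq_bot_of_comap_eq_bot h)⟩, fun _ => Iff.rfl⟩

theorem isAbove_unique {v' : HeightOneSpectrum (𝓞 K)} (h : IsAbove v w) (h' : IsAbove v' w) :
    v = v' := 
  HeightOneSpectrum.ext (Ideal.ext fun r => (h r).symm.trans (h' r))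

theorem isAbove_placePerm (h : IsAbove v w) : IsAbove v (placePerm σ.toRingEquiv w) := fun r => by
  rw [mem_placePerm, show RingOfIntegers.mapRingEquiv σ.toRingEquiv
      (RingOfIntegers.mapRingHom (algebraMap K K') r) = RingOfIntegers.mapRingHom (algebraMap K K') r
    from RingOfIntegers.ext (σ.commutes _)]
  exact h r

include hσ in
theorem placePerm_cube (w : HeightOneSpectrum (𝓞 K')) :
    placePerm σ.toRingEquiv (placePerm σ.toRingEquiv (placePerm σ.toRingEquiv w)) = w := 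
  Tame.placePerm_cube σ.toRingEquiv hσ.order_three w

include hσ in
/-- The fibre is one orbit. -/
theorem eq_or_eq_of_isAbove {w' : HeightOneSpectrum (𝓞 K')} (h : IsAbove v w)
    (h' : IsAbove v w') :
    w' = w ∨ w' = placePerm σ.toRingEquiv w ∨
      w' = placePerm σ.toRingEquiv (placePerm σ.toRingEquiv w) := by
  classical
  set p := placePerm σ.toRingEquiv
  by_contra hne
  push Not at hne
  obtain ⟨h0, h1, h2⟩ := hne
  obtain ⟨r, hr⟩ := IsDedekindDomain.exists_forall_sub_mem_ideal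
    (s := ({w', w, p w, p (p w)} : Finset _))
    (fun u => u.asIdeal) (fun _ => 1) (fun u _ => u.prime)
    (fun u _ u' _ huu h => huu (HeightOneSpectrum.ext h)) (fun u => if u.1 = w' then 0 else 1)
  have hr' : r ∈ w'.asIdeal := by simpa using hr w' (by simp)
  have hnot : ∀ u ∈ ({w', w, p w, p (p w)} : Finset _), u ≠ w' → r ∉ u.asIdeal := by
    intro u hu hne hmem
    have h1 := hr u hu
    simp only [if_neg hne, pow_one] at h1
    exact u.isPrime.ne_top ((Ideal.eq_top_iff_one _).2 (by simpa using u.asIdeal.sub_mem hmem h1))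
  set τ := RingOfIntegers.mapRingEquiv σ.toRingEquiv
  set N : 𝓞 K' := r * τ r * τ (τ r) with hN
  obtain ⟨b, hb⟩ := hσ.fixed (N : K') (by
    show σ ((r : K') * σ (r : K') * σ (σ (r : K'))) = (r : K') * σ (r : K') * σ (σ (r : K'))
    rw [map_mul, map_mul, hσ.order_three]
    ring)
  have hb' : RingOfIntegers.mapRingHom (algebraMap K K')
      ⟨b, (isIntegral_algebraMap_iff (algebraMap K K').injective).1 (hb ▸ N.2)⟩ = N :=
    RingOfIntegers.ext hb
  have hw : N ∈ w.asIdeal :=
    hb' ▸ (h _).2 ((h' _).1 (hb'.symm ▸ Ideal.mul_mem_right _ _ (Ideal.mul_mem_right _ _ hr')))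
  rcases w.isPrime.mem_or_mem hw with hw | hw
  · rcases w.isPrime.mem_or_mem hw with hw | hw
    · exact hnot w (by simp) (Ne.symm h0) hw
    · exact hnot (p w) (by simp) (Ne.symm h1) hw
  · exact hnot (p (p w)) (by simp) (Ne.symm h2) hw

include hσ in
theorem unique_of_fixed (h : IsAbove v w) (hfix : placePerm σ.toRingEquiv w = w)
    {w' : HeightOneSpectrum (𝓞 K')} (h' : IsAbove v w') : w' = w := by
  rcases eq_or_eq_of_isAbove hσ h h' with e | e | e
  · exact e
  · rwa [hfix] at e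
  · rwa [hfix, hfix] at e

include hσ in
theorem finite_tamePlaces : (tamePlaces σ).Finite := by
  obtain ⟨r, hr⟩ : ∃ r : 𝓞 K', RingOfIntegers.mapRingEquiv σ.toRingEquiv r - r ≠ 0 := by
    by_contra hc
    push Not at hc
    refine hσ.ne_one (AlgEquiv.ext fun x => ?_)
    obtain ⟨n, d, -, rfl⟩ := IsFractionRing.div_surjective (A := 𝓞 K') x
    have hfix : ∀ z : 𝓞 K', σ (algebraMap (𝓞 K') K' z) = algebraMap (𝓞 K') K' z := fun z =>
      congrArg Subtype.val (sub_eq_zero.1 (hc z))
    rw [map_div₀, hfix, hfix, AlgEquiv.one_apply]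
  have hfin : {w : HeightOneSpectrum (𝓞 K') |
      RingOfIntegers.mapRingEquiv σ.toRingEquiv r - r ∈ w.asIdeal}.Finite := by
    refine (Ideal.finite_factors (I := Ideal.span {RingOfIntegers.mapRingEquiv σ.toRingEquiv r - r})
      (by simpa using hr)).subset fun w hw => ?_
    exact Ideal.dvd_iff_le.2 ((Ideal.span_singleton_le_iff_mem _).2 hw)
  choose below hbelow using fun w : HeightOneSpectrum (𝓞 K') => exists_below (K := K) w
  exact (hfin.image below).subset fun v ⟨_, w, hw, hres⟩ =>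
    ⟨w, hres r, isAbove_unique (hbelow w) hw⟩

include hσ in
theorem trichotomy (v : HeightOneSpectrum (𝓞 K)) (h3 : (3 : 𝓞 K) ∉ v.asIdeal) :
    v ∈ tamePlaces σ ∨ IsInert σ v ∨ IsSplit σ v := by
  obtain ⟨w, hw⟩ := exists_isAbove (K' := K') v
  by_cases hfix : placePerm σ.toRingEquiv w = w
  · by_cases hres : IsResidueTrivial σ w
    · exact Or.inl ⟨h3, w, hw, hres⟩
    · refine Or.inr (Or.inl fun w' hw' => ?_)
      rw [unique_of_fixed hσ hw hfix hw']
      exact ⟨hfix, hres⟩
  · refine Or.inr (Or.inr fun w' hw' hfix' => hfix ?_)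
    rw [unique_of_fixed hσ hw' hfix' hw]
    exact hfix'

include hσ in
theorem not_isInert_of_mem_tamePlaces (h : v ∈ tamePlaces σ) : ¬ IsInert σ v := 
  fun hi => let ⟨_, w, hw, hres⟩ := h; (hi w hw).2 hres

include hσ in
theorem not_isSplit_of_mem_tamePlaces (h : v ∈ tamePlaces σ) : ¬ IsSplit σ v := 
  fun hs => let ⟨_, w, hw, hres⟩ := h; hs w hw (placePerm_eq_self _ w hres)

theorem IsInert.not_isSplit (h : IsInert σ v) : ¬ IsSplit σ v := 
  fun hs => let ⟨w, hw⟩ := exists_isAbove (K' := K') v; hs w hw (h w hw).1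

/-! ### Tame places -/

include hσ in
theorem tamePlace (h : v ∈ tamePlaces σ) (hw : IsAbove v w) : TamePlace σ v w := by
  obtain ⟨h3, w₀, hw₀, hres⟩ := h
  rw [unique_of_fixed hσ hw₀ (placePerm_eq_self _ w₀ hres) hw]
  exact ⟨hσ.ne_one, hσ.order_three, hσ.fixed, hw₀, hres, h3⟩

include hσ in
theorem absNorm_tame (h : v ∈ tamePlaces σ) (hw : IsAbove v w) :
    Ideal.absNorm w.asIdeal = Ideal.absNorm v.asIdeal := by
  rw [← CFT.Kummer.kl_card_residueField w, (tamePlace hσ h hw).card_residueField_eq,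
    CFT.Kummer.kl_card_residueField]

/-! ### Inert places -/

include hσ in
theorem IsInert.unique (h : IsInert σ v) {w' : HeightOneSpectrum (𝓞 K')} (hw : IsAbove v w)
    (hw' : IsAbove v w') : w' = w := 
  unique_of_fixed hσ hw (h w hw).1 hw'

theorem one_lt_absNorm {L : Type*} [Field L] [NumberField L] (u : HeightOneSpectrum (𝓞 L)) :
    1 < Ideal.absNorm u.asIdeal := by
  have h0 : Ideal.absNorm u.asIdeal ≠ 0 := fun h => u.ne_bot (Ideal.absNorm_eq_zero_iff.1 h)
  have h1 : Ideal.absNorm u.asIdeal ≠ 1 := fun h => u.isPrime.ne_top (Ideal.absNorm_eq_one_iff.1 h)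
  omega

theorem IsAbove.map_le (hw : IsAbove v w) :
    v.asIdeal.map (algebraMap (𝓞 K) (𝓞 K')) ≤ w.asIdeal :=
  Ideal.map_le_iff_le_comap.2 fun r hr => (hw r).2 hr

theorem map_ne_bot (v : HeightOneSpectrum (𝓞 K)) :
    v.asIdeal.map (algebraMap (𝓞 K) (𝓞 K')) ≠ ⊥ :=
  (Ideal.map_eq_bot_iff_of_injective (fun _ _ h => RingOfIntegers.ext
    ((algebraMap K K').injective (congrArg Subtype.val h)))).not.2 v.ne_bot

theorem IsAbove.exists_absNorm_eq_pow (hw : IsAbove v w) :
    ∃ f, 0 < f ∧ Ideal.absNorm w.asIdeal = Ideal.absNorm v.asIdeal ^ f := by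
  have := v.isMaximal
  have := w.isMaximal
  have : w.asIdeal.LiesOver v.asIdeal := ⟨Ideal.ext fun r => (hw r).symm⟩
  exact ⟨w.asIdeal.inertiaDeg (𝓞 K), Ideal.inertiaDeg_pos _ _, by
    rw [← Ideal.absNorm_relNorm (R := 𝓞 K), Ideal.relNorm_eq_pow_of_isMaximal w.asIdeal v.asIdeal,
      map_pow]⟩

include hσ in
theorem IsCubicGen.finrank_eq : Module.finrank K K' = 3 := by
  haveI : Module.Finite K K' := Module.Finite.of_restrictScalars_finite ℚ K K'
  have hbot : IntermediateField.fixedField (Subgroup.zpowers σ) = (⊥ : IntermediateField K K') := by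
    rw [eq_bot_iff]
    intro x hx
    exact IntermediateField.mem_bot.2 (hσ.fixed x (hx ⟨σ, Subgroup.mem_zpowers σ⟩))
  have : Fact (Nat.Prime 3) := ⟨Nat.prime_three⟩
  have h3 : σ ^ 3 = 1 := AlgEquiv.ext fun x => hσ.order_three x
  have := IntermediateField.finrank_fixedField_eq_card (Subgroup.zpowers σ)
  rw [hbot, IntermediateField.finrank_bot', Nat.card_zpowers,
    orderOf_eq_prime h3 hσ.ne_one] at this
  exact this

include hσ in
theorem absNorm_map :
    Ideal.absNorm (v.asIdeal.map (algebraMap (𝓞 K) (𝓞 K'))) = Ideal.absNorm v.asIdeal ^ 3 := by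
  rw [Ideal.absNorm_algebraMap, ← IsFractionRing.finrank_eq (𝓞 K) K (𝓞 K') K', hσ.finrank_eq]

include hσ in
theorem IsInert.absNorm_and_map (h : IsInert σ v) (hw : IsAbove v w) :
    Ideal.absNorm w.asIdeal = Ideal.absNorm v.asIdeal ^ 3 ∧
      v.asIdeal.map (algebraMap (𝓞 K) (𝓞 K')) = w.asIdeal := by
  obtain ⟨f, hf0, hf⟩ := hw.exists_absNorm_eq_pow
  obtain ⟨J, hJ⟩ := Ideal.dvd_iff_le.2 hw.map_le
  have hn := congrArg Ideal.absNorm hJ
  rw [absNorm_map hσ, map_mul, hf] at hn
  have hq := one_lt_absNorm v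
  -- every prime over `v` is `w`
  obtain ⟨e, he⟩ : ∃ e, v.asIdeal.map (algebraMap (𝓞 K) (𝓞 K')) = w.asIdeal ^ e := by
    classical
    refine ⟨(UniqueFactorizationMonoid.normalizedFactors
      (v.asIdeal.map (algebraMap (𝓞 K) (𝓞 K')))).count w.asIdeal, ?_⟩
    conv_lhs => rw [← associated_iff_eq.1
      (UniqueFactorizationMonoid.prod_normalizedFactors (map_ne_bot (K' := K') v))]
    refine Multiset.prod_eq_pow_single w.asIdeal fun Q hne hQ => absurd ?_ hne
    obtain ⟨hQp, hQle⟩ := (Ideal.mem_normalizedFactors_iff (map_ne_bot v)).1 hQ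
    have hQ0 : Q ≠ ⊥ := fun h0 => map_ne_bot v (le_bot_iff.1 (h0 ▸ hQle))
    have hQv : IsAbove v ⟨Q, hQp, hQ0⟩ := by
      obtain ⟨v', hv'⟩ := exists_below (K := K) ⟨Q, hQp, hQ0⟩
      suffices v = v' by rwa [this]
      exact HeightOneSpectrum.ext (v.isMaximal.eq_of_le v'.isPrime.ne_top
        fun r hr => (hv' r).1 (hQle (Ideal.mem_map_of_mem _ hr)))
    exact congrArg HeightOneSpectrum.asIdeal (IsInert.unique hσ h hw hQv)
  have hn' := congrArg Ideal.absNorm he
  rw [absNorm_map hσ, map_pow, hf, ← pow_mul] at hn'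
  have hfe : 3 = f * e := Nat.pow_right_injective hq hn'
  rcases (Nat.dvd_prime Nat.prime_three).1 ⟨e, hfe⟩ with rfl | rfl
  · exfalso
    refine (h w hw).2 fun r => ?_
    rw [pow_one] at hf
    let φ : 𝓞 K ⧸ v.asIdeal →+* 𝓞 K' ⧸ w.asIdeal :=
      Ideal.quotientMap w.asIdeal (algebraMap (𝓞 K) (𝓞 K')) fun r hr => (hw r).2 hr
    have hinj : Function.Injective φ := Ideal.quotientMap_injective' fun r hr => (hw r).1 hr
    have : Finite (𝓞 K' ⧸ w.asIdeal) := Nat.finite_of_card_ne_zero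
      fun h0 => w.ne_bot (Ideal.absNorm_eq_zero_iff.1 h0)
    have hbij := hinj.bijective_of_nat_card_le (le_of_eq hf)
    obtain ⟨c, hc⟩ := hbij.surjective (Ideal.Quotient.mk _ r)
    obtain ⟨c, rfl⟩ := Ideal.Quotient.mk_surjective c
    replace hc : algebraMap (𝓞 K) (𝓞 K') c - r ∈ w.asIdeal :=
      Ideal.Quotient.eq.1 (Ideal.quotientMap_mk.symm.trans hc)
    have hτ := (mem_placePerm σ.toRingEquiv w (algebraMap (𝓞 K) (𝓞 K') c - r)).1
      (by rwa [(h w hw).1])
    rw [map_sub, show RingOfIntegers.mapRingEquiv σ.toRingEquiv (algebraMap (𝓞 K) (𝓞 K') c) =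
      algebraMap (𝓞 K) (𝓞 K') c from RingOfIntegers.ext (σ.commutes _)] at hτ
    simpa using w.asIdeal.sub_mem hc hτ
  · refine ⟨hf, ?_⟩
    rw [he, show e = 1 by omega, pow_one]

/-- If `w` is unramified over `v` the valuations agree. -/
theorem IsAbove.valuation_algebraMap_of_not_le (hw : IsAbove v w)
    (he : ¬ v.asIdeal.map (algebraMap (𝓞 K) (𝓞 K')) ≤ w.asIdeal ^ 2) (x : K) :
    w.valuation K' (algebraMap K K' x) = v.valuation K x := by
  rw [Ideal.map_le_iff_le_comap, SetLike.not_le_iff_exists] at he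
  obtain ⟨r, hrv, hrw⟩ := he
  rw [Ideal.mem_comap] at hrw
  have hequiv := isEquiv_valuation_comap (RingOfIntegers.mapRingHom (algebraMap K K'))
    (algebraMap K K') map_integers_compat hw
  obtain ⟨π, hπ⟩ := v.valuation_exists_uniformizer K
  have hπ0 : π ≠ 0 := by rintro rfl; rw [map_zero] at hπ; exact WithZero.exp_ne_zero hπ.symm
  have hwπ : w.valuation K' (algebraMap K K' π) = WithZero.exp (-1 : ℤ) := by
    have h1 : w.valuation K' (algebraMap K K' π) < 1 := by
      have := (Valuation.isEquiv_iff_val_lt_one.1 hequiv).1 (show v.valuation K π < 1 by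
        rw [hπ, ← WithZero.exp_zero, WithZero.exp_lt_exp]; omega)
      exact this
    have h2 : w.valuation K' (algebraMap (𝓞 K') K' (algebraMap (𝓞 K) (𝓞 K') r)) ≤
        w.valuation K' (algebraMap K K' π) := by
      have := (hequiv (algebraMap (𝓞 K) K r) π).1 (by
        rw [hπ, valuation_of_algebraMap,
          show (-1 : ℤ) = -((1 : ℕ) : ℤ) by norm_num, intValuation_le_pow_iff_mem, pow_one]
        exact hrv)
      exact this
    have h3 : WithZero.exp (-2 : ℤ) < w.valuation K' (algebraMap (𝓞 K') K'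
        (algebraMap (𝓞 K) (𝓞 K') r)) := by
      rw [← not_le, valuation_of_algebraMap, show (-2 : ℤ) = -((2 : ℕ) : ℤ) by norm_num,
        intValuation_le_pow_iff_mem]
      exact hrw
    have h4 : w.valuation K' (algebraMap K K' π) ≠ 0 :=
      (Valuation.ne_zero_iff _).2 ((map_ne_zero _).2 hπ0)
    obtain ⟨a, ha⟩ : ∃ a : ℤ, w.valuation K' (algebraMap K K' π) = WithZero.exp a :=
      ⟨_, (WithZero.exp_log h4).symm⟩
    have h5 := h3.trans_le h2
    rw [ha] at h1 h5 ⊢
    rw [← WithZero.exp_zero, WithZero.exp_lt_exp] at h1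
    rw [WithZero.exp_lt_exp] at h5
    rw [show a = -1 by omega]
  rcases eq_or_ne x 0 with rfl | hx
  · simp
  obtain ⟨n, hn⟩ : ∃ n : ℤ, v.valuation K x = WithZero.exp n :=
    ⟨_, (WithZero.exp_log ((Valuation.ne_zero_iff _).2 hx)).symm⟩
  have hk : v.valuation K x = v.valuation K (π ^ (-n)) := by
    rw [map_zpow₀, hπ, hn, ← WithZero.exp_zsmul]; simp
  have h := hequiv.eq_iff.1 hk
  simp only [Valuation.comap_apply, map_zpow₀, hwπ] at h
  rw [h, hn, ← WithZero.exp_zsmul]
  simp

include hσ in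
theorem IsInert.absNorm (h : IsInert σ v) (hw : IsAbove v w) :
    Ideal.absNorm w.asIdeal = Ideal.absNorm v.asIdeal ^ 3 := 
  (IsInert.absNorm_and_map hσ h hw).1

include hσ in
/-- A uniformiser stays one at an inert place. -/
theorem IsInert.valuation_algebraMap (h : IsInert σ v) (hw : IsAbove v w) (x : K) :
    w.valuation K' (algebraMap K K' x) = v.valuation K x := 
  hw.valuation_algebraMap_of_not_le (by
    rw [(IsInert.absNorm_and_map hσ h hw).2]
    intro hle
    have hlt := Ideal.pow_right_strictAnti w.asIdeal w.ne_bot w.isPrime.ne_top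
      (show (1 : ℕ) < 2 by omega)
    simp only [pow_one] at hlt
    exact hlt.not_ge hle) x

/-! ### Split places -/

include hσ in
theorem IsSplit.distinct (h : IsSplit σ v) (hw : IsAbove v w) :
    placePerm σ.toRingEquiv w ≠ w ∧
      placePerm σ.toRingEquiv (placePerm σ.toRingEquiv w) ≠ w ∧
      placePerm σ.toRingEquiv (placePerm σ.toRingEquiv w) ≠ placePerm σ.toRingEquiv w := 
  ⟨h w hw, (SplitPlace.mk hσ.order_three hσ.fixed hw (h w hw)).moved_twice,
    h _ (isAbove_placePerm hw)⟩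

include hσ in
theorem IsSplit.absNorm_and_not_le (h : IsSplit σ v) (hw : IsAbove v w) :
    Ideal.absNorm w.asIdeal = Ideal.absNorm v.asIdeal ∧
      ¬ v.asIdeal.map (algebraMap (𝓞 K) (𝓞 K')) ≤ w.asIdeal ^ 2 := by
  set w₁ := placePerm σ.toRingEquiv w with hw₁
  set w₂ := placePerm σ.toRingEquiv w₁ with hw₂
  obtain ⟨h01, h02, h12⟩ := IsSplit.distinct hσ h hw
  have hw1 : IsAbove v w₁ := isAbove_placePerm hw
  have hw2 : IsAbove v w₂ := isAbove_placePerm hw1
  have hcop : ∀ {a b : HeightOneSpectrum (𝓞 K')}, a ≠ b → IsCoprime a.asIdeal b.asIdeal :=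
    fun {a b} hab => Ideal.isCoprime_iff_sup_eq.2
      (a.isMaximal.coprime_of_ne b.isMaximal fun he => hab (HeightOneSpectrum.ext he))
  obtain ⟨J, hJ⟩ : w.asIdeal * w₁.asIdeal * w₂.asIdeal ∣
      v.asIdeal.map (algebraMap (𝓞 K) (𝓞 K')) :=
    ((hcop h02.symm).mul_left (hcop h12.symm)).mul_dvd
      ((hcop h01.symm).mul_dvd (Ideal.dvd_iff_le.2 hw.map_le) (Ideal.dvd_iff_le.2 hw1.map_le))
      (Ideal.dvd_iff_le.2 hw2.map_le)
  obtain ⟨f, hf0, hf⟩ := hw.exists_absNorm_eq_pow
  obtain ⟨f₁, hf10, hf1⟩ := hw1.exists_absNorm_eq_pow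
  obtain ⟨f₂, hf20, hf2⟩ := hw2.exists_absNorm_eq_pow
  have hq := one_lt_absNorm v
  have hn := congrArg Ideal.absNorm hJ
  rw [absNorm_map hσ, map_mul, map_mul, map_mul, hf, hf1, hf2, ← pow_add, ← pow_add] at hn
  have hsum : f + f₁ + f₂ ≤ 3 :=
    (Nat.pow_dvd_pow_iff_le_right hq).1 (Dvd.intro _ hn.symm)
  obtain rfl : f = 1 := by omega
  obtain rfl : f₁ = 1 := by omega
  obtain rfl : f₂ = 1 := by omega
  have hJ1 : J = ⊤ := by
    refine Ideal.absNorm_eq_one_iff.1 ?_
    have hq0 : 0 < Ideal.absNorm v.asIdeal ^ 3 := pow_pos (by omega) 3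
    exact Nat.eq_of_mul_eq_mul_left hq0 (by rw [mul_one]; exact hn.symm)
  refine ⟨by rwa [pow_one] at hf, fun hle => ?_⟩
  rw [hJ, hJ1, Ideal.mul_top, ← Ideal.dvd_iff_le, sq, mul_assoc,
    mul_dvd_mul_iff_left w.ne_bot] at hle
  rcases w.prime.dvd_or_dvd hle with hd | hd
  · exact h01 (HeightOneSpectrum.ext (w₁.isMaximal.eq_of_le w.isPrime.ne_top
      (Ideal.dvd_iff_le.1 hd)))
  · exact h02 (HeightOneSpectrum.ext (w₂.isMaximal.eq_of_le w.isPrime.ne_top
      (Ideal.dvd_iff_le.1 hd)))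

include hσ in
theorem IsSplit.absNorm (h : IsSplit σ v) (hw : IsAbove v w) :
    Ideal.absNorm w.asIdeal = Ideal.absNorm v.asIdeal := 
  (IsSplit.absNorm_and_not_le hσ h hw).1

include hσ in
theorem IsSplit.valuation_algebraMap (h : IsSplit σ v) (hw : IsAbove v w) (x : K) :
    w.valuation K' (algebraMap K K' x) = v.valuation K x := 
  hw.valuation_algebraMap_of_not_le (IsSplit.absNorm_and_not_le hσ h hw).2 x

include hσ in
theorem IsSplit.completionEmb_bijective (h : IsSplit σ v) (hw : IsAbove v w) :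
    Function.Bijective (completionEmb (RingOfIntegers.mapRingHom (algebraMap K K'))
      (algebraMap K K') map_integers_compat hw) := 
  ⟨(completionEmb _ _ map_integers_compat hw).injective,
    (SplitPlace.mk hσ.order_three hσ.fixed hw (h w hw)).emb_surjective⟩

/-- With a cube root of unity in `K` the norms prime to three are `1` mod `3`. -/
theorem absNorm_mod_three {ζ : K} (hζ : IsPrimitiveRoot ζ 3) (v : HeightOneSpectrum (𝓞 K))
    (h3 : (3 : 𝓞 K) ∉ v.asIdeal) : Ideal.absNorm v.asIdeal % 3 = 1 := by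
  set q := Ideal.absNorm v.asIdeal with hq
  have := v.isMaximal
  letI := Ideal.Quotient.field v.asIdeal
  have hfin : Finite (𝓞 K ⧸ v.asIdeal) := Nat.finite_of_card_ne_zero
    fun h0 => v.ne_bot (Ideal.absNorm_eq_zero_iff.1 h0)
  set z : 𝓞 K := hζ.toInteger with hz
  have hz3 : IsPrimitiveRoot z 3 := hζ.toInteger_isPrimitiveRoot
  have hsum : z ^ 2 + z + 1 = 0 := by
    have h0 : (z - 1) * (z ^ 2 + z + 1) = 0 := by linear_combination hz3.pow_eq_one
    exact (mul_eq_zero.1 h0).resolve_left (sub_ne_zero.2 (hz3.ne_one (by omega)))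
  set u := Ideal.Quotient.mk v.asIdeal z with hu
  have hu3 : u ^ 3 = 1 := by rw [hu, ← map_pow, hz3.pow_eq_one, map_one]
  have hu1 : u ≠ 1 := fun h1 => h3 (Ideal.Quotient.eq_zero_iff_mem.1 (by
    have := congrArg (Ideal.Quotient.mk v.asIdeal) hsum
    rw [map_add, map_add, map_pow, ← hu, h1, map_zero, map_one] at this
    rw [map_ofNat, ← this]
    norm_num))
  have : Fact (Nat.Prime 3) := ⟨Nat.prime_three⟩
  have hdvd : 3 ∣ Nat.card (𝓞 K ⧸ v.asIdeal)ˣ := by
    set U : (𝓞 K ⧸ v.asIdeal)ˣ := Units.ofPowEqOne u 3 hu3 (by omega) with hU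
    rw [← orderOf_eq_prime (x := U) (p := 3) (Units.ext (by simpa [hU] using hu3))
      (fun h => hu1 (by simpa [hU] using congrArg Units.val h))]
    exact orderOf_dvd_natCard _
  rw [Nat.card_units] at hdvd
  have hq1 := one_lt_absNorm v
  have hcard : Nat.card (𝓞 K ⧸ v.asIdeal) = q := rfl
  rw [hcard] at hdvd
  omega

end Fermat.Agent.LT.Descent.Places

end
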